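import Mathlib.Data.ZMod.Basic
import Mathlib.Algebra.Module.ZMod
import Mathlib.Algebra.Module.Torsion.Basic
import Mathlib.GroupTheory.OrderOfElement
import Mathlib.RingTheory.Int.Basic
import Mathlib.Tactic.LinearCombination
import Mathlib.Tactic.Module

/-!
# A criterion for `A[n] ≅ (ℤ/n)²`

If `A` is an abelian group such that, for every prime `p ∣ n`, multiplication by `p` is
surjective and `A[p]` has `p²` elements, then `A[n] ≅ (ℤ/n)²`.
-/

namespace Fermat.Agent.EC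

variable {A : Type*} [AddCommGroup A]

/-- `f₁, f₂` are killed by `n` and independent modulo `n`. -/
def IsTorsionPair (n : ℕ) (f₁ f₂ : A) : Prop :=
  (n : ℤ) • f₁ = 0 ∧ (n : ℤ) • f₂ = 0 ∧
    ∀ a b : ℤ, a • f₁ + b • f₂ = 0 → (n : ℤ) ∣ a ∧ (n : ℤ) ∣ b

theorem exists_isTorsionPair_prime {p : ℕ} (hp : p.Prime)
    (hcard : Nat.card (Submodule.torsionBy ℤ A p) = p ^ 2) :
    ∃ e₁ e₂ : A, IsTorsionPair p e₁ e₂ := by
  have : Finite (Submodule.torsionBy ℤ A p) :=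
    Nat.finite_of_card_ne_zero (hcard ▸ pow_ne_zero 2 hp.ne_zero)
  have : Nontrivial (Submodule.torsionBy ℤ A p) :=
    Finite.one_lt_card_iff_nontrivial.1 (hcard ▸ Nat.one_lt_pow two_ne_zero hp.one_lt)
  obtain ⟨⟨e₁, h₁⟩, hne⟩ := exists_ne (0 : Submodule.torsionBy ℤ A p)
  rw [Submodule.mem_torsionBy_iff] at h₁
  have hord : addOrderOf e₁ = p :=
    addOrderOf_eq_prime (hp := ⟨hp⟩) (by simpa using h₁)
      (fun h => hne (Subtype.ext h))
  have hex : ∃ e₂ : A, (p : ℤ) • e₂ = 0 ∧ e₂ ∉ AddSubgroup.zmultiples e₁ := by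
    by_contra! h
    have hle : Nat.card (Submodule.torsionBy ℤ A p) ≤ Nat.card (AddSubgroup.zmultiples e₁) := by
      have : Finite (AddSubgroup.zmultiples e₁) :=
        Nat.finite_of_card_ne_zero (by rw [Nat.card_zmultiples, hord]; exact hp.ne_zero)
      refine Nat.card_le_card_of_injective
        (fun x => ⟨x.1, h x.1 ((Submodule.mem_torsionBy_iff _ _).1 x.2)⟩) fun x y e => ?_
      exact Subtype.ext (congrArg (fun z : AddSubgroup.zmultiples e₁ => (z : A)) e)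
    rw [hcard, Nat.card_zmultiples, hord] at hle
    nlinarith [hp.two_le]
  obtain ⟨e₂, h₂, hnot⟩ := hex
  refine ⟨e₁, e₂, h₁, h₂, fun a b hab => ?_⟩
  have hb : (p : ℤ) ∣ b := by
    by_contra hb
    obtain ⟨u, v, huv⟩ := (Nat.prime_iff_prime_int.1 hp).coprime_iff_not_dvd.2 hb
    refine hnot ⟨-(v * a), ?_⟩
    have : e₂ = (u * p + v * b) • e₂ := by rw [huv, one_smul]
    rw [this, add_smul, mul_smul, mul_smul, h₂, smul_zero, zero_add,
      eq_neg_of_add_eq_zero_right hab]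
    simp [mul_smul]
  refine ⟨?_, hb⟩
  obtain ⟨c, rfl⟩ := hb
  rw [mul_comm, mul_smul, h₂, smul_zero, add_zero] at hab
  rw [← hord]
  exact addOrderOf_dvd_iff_zsmul_eq_zero.2 hab

theorem exists_isTorsionPair {n : ℕ} (hn : n ≠ 0)
    (hsurj : ∀ p : ℕ, p.Prime → p ∣ n → Function.Surjective fun x : A => (p : ℤ) • x)
    (hcard : ∀ p : ℕ, p.Prime → p ∣ n → Nat.card (Submodule.torsionBy ℤ A p) = p ^ 2) :
    ∃ f₁ f₂ : A, IsTorsionPair n f₁ f₂ := by
  induction n using induction_on_primes with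
  | zero => exact absurd rfl hn
  | one => exact ⟨0, 0, smul_zero _, smul_zero _, fun a b _ => by simp⟩
  | prime_mul p m hp ih =>
    obtain ⟨g₁, g₂, hg₁, hg₂, hg⟩ := ih (right_ne_zero_of_mul hn)
      (fun q hq h => hsurj q hq (h.mul_left p)) (fun q hq h => hcard q hq (h.mul_left p))
    suffices key : ∃ f₁ f₂ : A, (p : ℤ) • f₁ = g₁ ∧ (p : ℤ) • f₂ = g₂ ∧
        ∀ a b : ℤ, ((m : ℤ) * a) • f₁ + ((m : ℤ) * b) • f₂ = 0 → (p : ℤ) ∣ a ∧ (p : ℤ) ∣ b by
      obtain ⟨f₁, f₂, hf₁, hf₂, hf⟩ := key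
      refine ⟨f₁, f₂, ?_, ?_, fun a b hab => ?_⟩
      · rw [Nat.cast_mul, mul_comm, mul_smul, hf₁, hg₁]
      · rw [Nat.cast_mul, mul_comm, mul_smul, hf₂, hg₂]
      · have h' : a • g₁ + b • g₂ = 0 := by
          rw [← hf₁, ← hf₂, smul_comm a, smul_comm b, ← smul_add, hab, smul_zero]
        obtain ⟨⟨a', rfl⟩, b', rfl⟩ := hg a b h'
        obtain ⟨ha, hb⟩ := hf a' b' hab
        push_cast
        rw [mul_comm (p : ℤ)]
        exact ⟨mul_dvd_mul_left _ ha, mul_dvd_mul_left _ hb⟩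
    by_cases hpm : p ∣ m
    · obtain ⟨f₁, hf₁⟩ := hsurj p hp (dvd_mul_right p m) g₁
      obtain ⟨f₂, hf₂⟩ := hsurj p hp (dvd_mul_right p m) g₂
      refine ⟨f₁, f₂, hf₁, hf₂, fun a b hab => ?_⟩
      obtain ⟨k, rfl⟩ := hpm
      have hk : (k : ℤ) ≠ 0 := by
        exact_mod_cast right_ne_zero_of_mul (right_ne_zero_of_mul hn)
      have h' : ((k : ℤ) * a) • g₁ + ((k : ℤ) * b) • g₂ = 0 := by
        rw [← hab, ← hf₁, ← hf₂]
        push_cast
        module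
      obtain ⟨ha, hb⟩ := hg _ _ h'
      push_cast at ha hb
      rw [mul_comm (p : ℤ)] at ha hb
      exact ⟨(mul_dvd_mul_iff_left hk).1 ha, (mul_dvd_mul_iff_left hk).1 hb⟩
    · obtain ⟨e₁, e₂, he₁, he₂, he⟩ :=
        exists_isTorsionPair_prime hp (hcard p hp (dvd_mul_right p m))
      obtain ⟨u, v, huv⟩ : IsCoprime (p : ℤ) m :=
        Int.isCoprime_iff_nat_coprime.2 ((Nat.Prime.coprime_iff_not_dvd hp).2 hpm)
      refine ⟨u • g₁ + e₁, u • g₂ + e₂, ?_, ?_, fun a b hab => ?_⟩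
      · calc (p : ℤ) • (u • g₁ + e₁) = (u * p + v * m) • g₁ + (p : ℤ) • e₁ - v • (m : ℤ) • g₁ := by
              module
          _ = g₁ := by rw [huv, he₁, hg₁]; simp
      · calc (p : ℤ) • (u • g₂ + e₂) = (u * p + v * m) • g₂ + (p : ℤ) • e₂ - v • (m : ℤ) • g₂ := by
              module
          _ = g₂ := by rw [huv, he₂, hg₂]; simp
      · have h' : ((m : ℤ) * a) • e₁ + ((m : ℤ) * b) • e₂ = 0 :=
          calc ((m : ℤ) * a) • e₁ + ((m : ℤ) * b) • e₂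
              = ((m : ℤ) * a) • (u • g₁ + e₁) + ((m : ℤ) * b) • (u • g₂ + e₂)
                - ((u * a) • (m : ℤ) • g₁ + (u * b) • (m : ℤ) • g₂) := by module
            _ = 0 := by rw [hab, hg₁, hg₂]; simp
        obtain ⟨ha, hb⟩ := he _ _ h'
        have hpm' : ¬(p : ℤ) ∣ (m : ℤ) := by exact_mod_cast hpm
        have hpp := Nat.prime_iff_prime_int.1 hp
        exact ⟨(hpp.dvd_or_dvd ha).resolve_left hpm', (hpp.dvd_or_dvd hb).resolve_left hpm'⟩

/-- The group isomorphism `(ℤ/n)² ≅ A[n]` attached to a torsion pair, when `A[n]` has `n²`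
elements. -/
theorem IsTorsionPair.exists_addEquiv {n : ℕ} [NeZero n] {f₁ f₂ : A}
    (h : IsTorsionPair n f₁ f₂) (hcard : Nat.card (Submodule.torsionBy ℤ A n) = n ^ 2) :
    ∃ e : (ZMod n × ZMod n) ≃+ Submodule.torsionBy ℤ A n,
      (e (1, 0) : A) = f₁ ∧ (e (0, 1) : A) = f₂ := by
  have : Finite (Submodule.torsionBy ℤ A n) :=
    Nat.finite_of_card_ne_zero (hcard ▸ pow_ne_zero 2 (NeZero.ne n))
  let g₁ : Submodule.torsionBy ℤ A n := ⟨f₁, (Submodule.mem_torsionBy_iff _ _).2 h.1⟩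
  let g₂ : Submodule.torsionBy ℤ A n := ⟨f₂, (Submodule.mem_torsionBy_iff _ _).2 h.2.1⟩
  let φ₁ : ZMod n →+ Submodule.torsionBy ℤ A n :=
    ZMod.lift n ⟨zmultiplesHom _ g₁, Subtype.ext (by simpa [g₁] using h.1)⟩
  let φ₂ : ZMod n →+ Submodule.torsionBy ℤ A n :=
    ZMod.lift n ⟨zmultiplesHom _ g₂, Subtype.ext (by simpa [g₂] using h.2.1)⟩
  have hinj : Function.Injective (φ₁.coprod φ₂) := by
    rw [injective_iff_map_eq_zero]
    rintro ⟨a, b⟩ hab
    obtain ⟨a, rfl⟩ := ZMod.intCast_surjective a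
    obtain ⟨b, rfl⟩ := ZMod.intCast_surjective b
    have := h.2.2 a b (by simpa [φ₁, φ₂, g₁, g₂, ZMod.lift_coe] using congrArg Subtype.val hab)
    simp [(ZMod.intCast_zmod_eq_zero_iff_dvd _ _).2 this.1,
      (ZMod.intCast_zmod_eq_zero_iff_dvd _ _).2 this.2]
  have hbij : Function.Bijective (φ₁.coprod φ₂) :=
    (Nat.bijective_iff_injective_and_card _).2 ⟨hinj, by rw [hcard, Nat.card_prod, Nat.card_zmod]; ring⟩
  refine ⟨AddEquiv.ofBijective _ hbij, ?_, ?_⟩ <;>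
    simp [φ₁, φ₂, g₁, g₂, ← Int.cast_one (R := ZMod n), ZMod.lift_coe, -Int.cast_one]

end Fermat.Agent.EC
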