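import Fermat.Agent.EC.Torsion.Count
import Fermat.Agent.EC.Torsion.Pair
import Fermat.Prelude.Def_FLTPrelim_GaloisRep

/-!
# `E[n]` is free of rank two over `ℤ/n`
-/

namespace Fermat.Agent.EC

open WeierstrassCurve.Affine

variable {F : Type*} [Field F] [DecidableEq F] [IsAlgClosed F]

theorem exists_isTorsionPair_point (W : WeierstrassCurve.Affine F) [W.IsElliptic] {n : ℕ}
    (hn : (n : F) ≠ 0) : ∃ f₁ f₂ : W.Point, IsTorsionPair n f₁ f₂ :=
  exists_isTorsionPair (by rintro rfl; simp at hn)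
    (fun p hp _ => zsmul_surjective (by exact_mod_cast hp.ne_zero))
    (fun p _ hpn => natCard_torsionBy W fun h => hn <| by
      obtain ⟨k, rfl⟩ := hpn
      rw [Nat.cast_mul, h, zero_mul])

theorem nonempty_torsionBy_addEquiv (W : WeierstrassCurve.Affine F) [W.IsElliptic] {n : ℕ}
    (hn : (n : F) ≠ 0) : Nonempty ((ZMod n × ZMod n) ≃+ Submodule.torsionBy ℤ W.Point n) := by
  have : NeZero n := ⟨by rintro rfl; simp at hn⟩
  obtain ⟨f₁, f₂, h⟩ := exists_isTorsionPair_point W hn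
  obtain ⟨e, -⟩ := h.exists_addEquiv (natCard_torsionBy W hn)
  exact ⟨e⟩

variable {R : Type*} [CommRing R] [Algebra R F]

theorem nonempty_torsionBy_linearEquiv (W' : WeierstrassCurve R) [W'.IsElliptic] {n : ℕ}
    (hn : (n : F) ≠ 0) :
    Nonempty ((ZMod n × ZMod n) ≃ₗ[ZMod n] Submodule.torsionBy ℤ (W'⁄F).Point n) := by
  have : (W'⁄F).IsElliptic := inferInstanceAs (W'.map (algebraMap R F)).IsElliptic
  obtain ⟨e⟩ := nonempty_torsionBy_addEquiv (W'⁄F) hn
  exact ⟨e.toLinearEquiv fun c x => ZMod.map_smul e.toAddMonoidHom c x⟩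

theorem nonempty_torsionBy_basis (W' : WeierstrassCurve R) [W'.IsElliptic] {n : ℕ}
    (hn : (n : F) ≠ 0) :
    Nonempty (Module.Basis (Fin 2) (ZMod n) (Submodule.torsionBy ℤ (W'⁄F).Point n)) := by
  obtain ⟨e⟩ := nonempty_torsionBy_linearEquiv (F := F) W' hn
  exact ⟨(Module.Basis.finTwoProd (ZMod n)).map e⟩

theorem free_torsionBy (W' : WeierstrassCurve R) [W'.IsElliptic] {n : ℕ} (hn : (n : F) ≠ 0) :
    Module.Free (ZMod n) (Submodule.torsionBy ℤ (W'⁄F).Point n) :=
  Module.Free.of_basis (nonempty_torsionBy_basis W' hn).some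

theorem finrank_torsionBy (W' : WeierstrassCurve R) [W'.IsElliptic] {n : ℕ} [Fact (1 < n)]
    (hn : (n : F) ≠ 0) :
    Module.finrank (ZMod n) (Submodule.torsionBy ℤ (W'⁄F).Point n) = 2 := by
  obtain ⟨b⟩ := nonempty_torsionBy_basis (F := F) W' hn
  rw [Module.finrank_eq_card_basis b, Fintype.card_fin]

end Fermat.Agent.EC
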