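import Fermat.Agent.EC.Torsion.Galois
import Fermat.Agent.EC.Torsion.Rank

/-!
# Torsion of elliptic curves over `ℚ` in `ℚ̄`
-/

namespace Fermat.Agent.EC

open scoped WeierstrassCurve.Affine

theorem natCard_torsion_rat (W : WeierstrassCurve ℚ) [W.IsElliptic] {n : ℕ} (hn : n ≠ 0) :
    Nat.card (Submodule.torsionBy ℤ (W⁄(AlgebraicClosure ℚ)).Point n) = n ^ 2 :=
  natCard_torsionBy_baseChange W (Nat.cast_ne_zero.2 hn)

theorem finite_torsion_rat (W : WeierstrassCurve ℚ) [W.IsElliptic] {n : ℕ} (hn : n ≠ 0) :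
    Finite (Submodule.torsionBy ℤ (W⁄(AlgebraicClosure ℚ)).Point n) :=
  finite_torsionBy_baseChange W hn

theorem finrank_torsion_rat (W : WeierstrassCurve ℚ) [W.IsElliptic] (p : ℕ) [hp : Fact p.Prime] :
    Module.finrank (ZMod p) (Submodule.torsionBy ℤ (W⁄(AlgebraicClosure ℚ)).Point p) = 2 :=
  haveI : Fact (1 < p) := ⟨hp.out.one_lt⟩
  finrank_torsionBy W (Nat.cast_ne_zero.2 hp.out.ne_zero)

/-- The mod `p` residual representation of an elliptic curve over `ℚ`, with its side conditions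
discharged. -/
noncomputable def torsionRepRat (W : WeierstrassCurve ℚ) [W.IsElliptic] (p : ℕ)
    [hp : Fact p.Prime] : ResidualGaloisRep (ZMod p) :=
  W.residualGaloisRepOf p (natCard_torsion_rat W hp.out.ne_zero)
    (galoisRepModuleEnd_factorsThroughFiniteLevel W hp.out.ne_zero)

end Fermat.Agent.EC
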