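import Fermat.Agent.EC.DivPoly.MulFormula
import Mathlib.AlgebraicGeometry.EllipticCurve.DivisionPolynomial.Degree
import Mathlib.AlgebraicGeometry.EllipticCurve.Affine.Point
import Mathlib.FieldTheory.IsAlgClosed.AlgebraicClosure
import Mathlib.RingTheory.Polynomial.Wronskian
import Mathlib.Algebra.Module.Torsion.Basic

/-!
# The number of torsion points of an elliptic curve

Over an algebraically closed field in which `n` is invertible, `E[n]` has `n²` elements: the
Wronskian of `ΨSqₙ` and `Φₙ` has top coefficient `n²`, so for all but finitely many `c` the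
polynomial `Φₙ - c ΨSqₙ` has `n²` distinct roots, which parametrise one fibre of `[n]`.
-/

namespace Fermat.Agent.EC

open Polynomial

variable {F : Type*} [Field F] [DecidableEq F] {W : WeierstrassCurve.Affine F}

/-! ## Counting torsion points -/

namespace TorsionCount

open WeierstrassCurve.Affine

omit [DecidableEq F] in
theorem Ψ₂Sq_ne_zero_of_isElliptic (W : WeierstrassCurve F) [W.IsElliptic] : W.Ψ₂Sq ≠ 0 := by
  by_cases h4 : (4 : F) = 0
  · intro h
    have hb2 : W.b₂ = 0 := by
      have := congrArg (fun p => p.coeff 2) h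
      simpa [WeierstrassCurve.Ψ₂Sq, coeff_X, coeff_C] using this
    have hb6 : W.b₆ = 0 := by
      have := congrArg (fun p => p.coeff 0) h
      simpa [WeierstrassCurve.Ψ₂Sq, coeff_X, coeff_C] using this
    refine W.isUnit_Δ.ne_zero ?_
    rw [WeierstrassCurve.Δ, hb2, hb6]
    linear_combination (-2 * W.b₄ ^ 3) * h4
  · exact W.Ψ₂Sq_ne_zero h4

variable [IsAlgClosed F]

omit [DecidableEq F] in
theorem exists_nonsingular [W.IsElliptic] (x : F) : ∃ y, W.Nonsingular x y := by
  obtain ⟨y, hy⟩ := IsAlgClosed.exists_root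
    (C 1 * X ^ 2 + C (W.a₁ * x + W.a₃) * X + C (-(x ^ 3 + W.a₂ * x ^ 2 + W.a₄ * x + W.a₆)))
    (by rw [degree_quadratic one_ne_zero]; decide)
  refine ⟨y, equation_iff_nonsingular.1 <| (equation_iff _ _).2 ?_⟩
  simp only [IsRoot.def, eval_add, eval_mul, eval_pow, eval_C, eval_X] at hy
  linear_combination hy

omit [DecidableEq F] [IsAlgClosed F] in
theorem wronskian_ΨSq_Φ_ne_zero (W : WeierstrassCurve F) {n : ℤ} (hn : (n : F) ≠ 0) :
    wronskian (W.ΨSq n) (W.Φ n) ≠ 0 := by
  have hn0 : n ≠ 0 := by rintro rfl; simp at hn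
  obtain ⟨m, hm⟩ : ∃ m, n.natAbs ^ 2 = m + 1 :=
    ⟨n.natAbs ^ 2 - 1, (Nat.sub_add_cancel
      (Nat.one_le_pow _ _ (Int.natAbs_pos.2 hn0))).symm⟩
  have hsq : ((m : F) + 1) = (n : F) ^ 2 := by
    have : ((n.natAbs ^ 2 : ℕ) : ℤ) = n ^ 2 := by simp
    have := congrArg (Int.cast : ℤ → F) this
    rw [hm] at this
    push_cast at this
    exact this
  have hΦ : (W.Φ n).natDegree ≤ m + 1 := hm ▸ W.natDegree_Φ_le n
  have hΦc : (W.Φ n).coeff (m + 1) = 1 := hm ▸ W.coeff_Φ n
  have hΨ : (W.ΨSq n).natDegree ≤ m := by simpa [hm] using W.natDegree_ΨSq_le n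
  have hΨc : (W.ΨSq n).coeff m = (n : F) ^ 2 := by simpa [hm] using W.coeff_ΨSq n
  intro h
  have h' := congrArg (fun p => p.coeff (m + m)) h
  simp only [wronskian, coeff_sub, coeff_zero] at h'
  rw [coeff_mul_add_eq_of_natDegree_le hΨ
    ((natDegree_derivative_le _).trans (by omega)), coeff_derivative, hΦc, hΨc] at h'
  rcases m with _ | m
  · have : derivative (W.ΨSq n) = 0 :=
      derivative_of_natDegree_zero (Nat.le_zero.1 hΨ)
    rw [this, zero_mul, coeff_zero] at h'
    simp at h'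
    exact hn (by simpa using h')
  · rw [show m + 1 + (m + 1) = m + (m + 2) by omega,
      coeff_mul_add_eq_of_natDegree_le ((natDegree_derivative_le _).trans (by omega)) hΦ,
      coeff_derivative, hΦc, hΨc] at h'
    apply hn
    push_cast at h'
    exact pow_eq_zero_iff two_ne_zero |>.1 (by linear_combination h')

omit [DecidableEq F] [IsAlgClosed F] in
theorem natDegree_fibrePoly (W : WeierstrassCurve F) {n : ℤ} (hn : n ≠ 0) (c : F) :
    (W.Φ n - C c * W.ΨSq n).natDegree = n.natAbs ^ 2 := by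
  rw [natDegree_sub_eq_left_of_natDegree_lt, W.natDegree_Φ]
  rw [W.natDegree_Φ]
  refine ((natDegree_C_mul_le _ _).trans (W.natDegree_ΨSq_le n)).trans_lt ?_
  exact Nat.sub_lt (pow_pos (Int.natAbs_pos.2 hn) 2) one_pos

theorem eval_ΨSq_ne_zero_of_isRoot [W.IsElliptic] {n : ℤ} {c x : F}
    (hx : (W.Φ n - C c * W.ΨSq n).IsRoot x) : (W.ΨSq n).eval x ≠ 0 := by
  obtain ⟨y, h⟩ := exists_nonsingular (W := W) x
  intro h0
  refine eval_Φ_ne_zero_of_eval_ΨSq_eq_zero h n h0 ?_
  simpa [h0] using hx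

theorem exists_good_value (W : WeierstrassCurve.Affine F) [W.IsElliptic] {n : ℤ}
    (hn : (n : F) ≠ 0) : ∃ c : F, W.Ψ₂Sq.eval c ≠ 0 ∧
      (W.Φ n - C c * W.ΨSq n).roots.Nodup := by
  classical
  let bad : Finset F := W.Ψ₂Sq.roots.toFinset ∪
    (wronskian (W.ΨSq n) (W.Φ n)).roots.toFinset.image
      (fun x => (W.Φ n).eval x / (W.ΨSq n).eval x)
  obtain ⟨c, hc⟩ := Infinite.exists_notMem_finset bad
  simp only [bad, Finset.mem_union, Multiset.mem_toFinset, not_or] at hc
  refine ⟨c, fun h => hc.1 <| (mem_roots (Ψ₂Sq_ne_zero_of_isElliptic W)).2 h,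
    Multiset.nodup_iff_count_le_one.2 fun x => ?_⟩
  by_contra! hx
  rw [count_roots] at hx
  have hf : W.Φ n - C c * W.ΨSq n ≠ 0 := fun h => by simp [h] at hx
  obtain ⟨h0, h1⟩ := (one_lt_rootMultiplicity_iff_isRoot hf).1 hx
  have hΨ := eval_ΨSq_ne_zero_of_isRoot h0
  simp only [IsRoot.def, derivative_sub, derivative_mul, derivative_C, zero_mul, zero_add,
    eval_sub, eval_mul, eval_C] at h0 h1
  refine hc.2 (Finset.mem_image.2 ⟨x, ?_, ?_⟩)
  · rw [Multiset.mem_toFinset, mem_roots (wronskian_ΨSq_Φ_ne_zero W hn)]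
    simp only [IsRoot.def, wronskian, eval_sub, eval_mul]
    linear_combination ((W.ΨSq n).eval x) * h1 - (derivative (W.ΨSq n)).eval x * h0
  · rw [div_eq_iff hΨ]
    linear_combination h0

/-- The x-coordinate of a point, with the junk value `0` at the origin. -/
noncomputable def xCoord : W.Point → F
  | .zero => 0
  | @Point.some _ _ _ x _ _ => x

omit [DecidableEq F] [IsAlgClosed F] in
@[simp] theorem xCoord_some {x y : F} (h : W.Nonsingular x y) :
    xCoord (Point.some x y h) = x := rfl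

theorem exists_zsmul_eq [W.IsElliptic] {n : ℤ} {c d x : F} (hcd : W.Nonsingular c d)
    (hx : (W.Φ n - C c * W.ΨSq n).IsRoot x) :
    ∃ P : W.Point, n • P = Point.some c d hcd ∧ xCoord P = x := by
  obtain ⟨y, h⟩ := exists_nonsingular (W := W) x
  have hΨ := eval_ΨSq_ne_zero_of_isRoot hx
  obtain ⟨y', h', hP⟩ := zsmul_some_eq_some h n hΨ
  have hc : (W.Φ n).eval x / (W.ΨSq n).eval x = c := by
    rw [div_eq_iff hΨ]
    simp only [IsRoot.def, eval_sub, eval_mul, eval_C] at hx
    linear_combination hx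
  rcases (Point.X_eq_iff (h₁ := h') (h₂ := hcd)).1 hc with e | e
  · exact ⟨_, hP.trans e, xCoord_some h⟩
  · refine ⟨-Point.some x y h, ?_, ?_⟩
    · rw [zsmul_neg, hP, e, neg_neg]
    · rw [Point.neg_some, xCoord_some]

omit [IsAlgClosed F] in
theorem isRoot_of_zsmul_eq {n : ℤ} {c d : F} (hcd : W.Nonsingular c d)
    {P : W.Point} (hP : n • P = Point.some c d hcd) :
    (W.Φ n - C c * W.ΨSq n).IsRoot (xCoord P) := by
  cases P with
  | zero =>
    rw [← Point.zero_def, smul_zero] at hP
    exact absurd hP.symm (Point.some_ne_zero _)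
  | some x y h =>
    have hΨ : (W.ΨSq n).eval x ≠ 0 := fun h0 => by
      rw [(zsmul_some_eq_zero_iff h n).2 h0] at hP
      exact absurd hP.symm (Point.some_ne_zero _)
    obtain ⟨y', h', e⟩ := zsmul_some_eq_some h n hΨ
    rw [hP, Point.some.injEq] at e
    rw [xCoord_some, IsRoot.def, eval_sub, eval_mul, eval_C, e.1, div_mul_cancel₀ _ hΨ, sub_self]

end TorsionCount

open TorsionCount WeierstrassCurve.Affine

variable [IsAlgClosed F]

/-- Multiplication by a nonzero integer on the points of an elliptic curve over an algebraically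
closed field is surjective, in any characteristic. -/
theorem zsmul_surjective [W.IsElliptic] {n : ℤ} (hn : n ≠ 0) :
    Function.Surjective fun P : W.Point => n • P := by
  rintro (_ | ⟨c, d, h⟩)
  · exact ⟨0, smul_zero n⟩
  · have hd := natDegree_fibrePoly W hn c
    obtain ⟨x, hx⟩ := IsAlgClosed.exists_root (W.Φ n - C c * W.ΨSq n) fun h0 => by
      have := natDegree_eq_of_degree_eq_some h0
      rw [hd] at this
      exact hn (Int.natAbs_eq_zero.1 (pow_eq_zero_iff two_ne_zero |>.1 this))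
    obtain ⟨P, hP, -⟩ := exists_zsmul_eq h hx
    exact ⟨P, hP⟩

theorem nsmul_surjective [W.IsElliptic] {n : ℕ} (hn : n ≠ 0) :
    Function.Surjective fun P : W.Point => n • P := fun Q => by
  obtain ⟨P, hP⟩ := zsmul_surjective (W := W) (n := n) (by exact_mod_cast hn) Q
  exact ⟨P, by simpa using hP⟩

theorem natCard_ker_zsmul [W.IsElliptic] {n : ℤ} (hn : (n : F) ≠ 0) :
    Nat.card {P : W.Point // n • P = 0} = n.natAbs ^ 2 := by
  classical
  have hn0 : n ≠ 0 := by rintro rfl; simp at hn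
  obtain ⟨c, hc, hnd⟩ := exists_good_value W hn
  obtain ⟨d, hcd⟩ := exists_nonsingular (W := W) c
  set f := W.Φ n - C c * W.ΨSq n
  have hd : f.natDegree = n.natAbs ^ 2 := natDegree_fibrePoly W hn0 c
  have hf : f ≠ 0 := fun h => hn0 <| by simpa [h] using hd.symm
  set Q := Point.some c d hcd
  have h2 : Q ≠ -Q := fun h => by
    rw [Point.neg_some, Point.some.injEq] at h
    refine hc ?_
    have e := (equation_iff _ _).1 hcd.left
    have h' : d = -d - W.a₁ * c - W.a₃ := h.2
    simp only [WeierstrassCurve.Ψ₂Sq, WeierstrassCurve.b₂, WeierstrassCurve.b₄,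
      WeierstrassCurve.b₆, eval_add, eval_mul, eval_pow, eval_C, eval_X]
    linear_combination (-4 : F) * e + (2 * d + W.a₁ * c + W.a₃) * h'
  let g : {P : W.Point // n • P = Q} → f.roots.toFinset := fun P =>
    ⟨xCoord P.1, Multiset.mem_toFinset.2 <| (mem_roots hf).2 <| isRoot_of_zsmul_eq hcd P.2⟩
  have hg : Function.Bijective g := by
    refine ⟨fun ⟨P, hP⟩ ⟨P', hP'⟩ e => Subtype.ext ?_, fun ⟨x, hx⟩ => ?_⟩
    · replace e : xCoord P = xCoord P' := congrArg Subtype.val e
      rcases P with _ | ⟨x, y, h⟩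
      · rw [← Point.zero_def, smul_zero] at hP; exact absurd hP.symm (Point.some_ne_zero _)
      rcases P' with _ | ⟨x', y', h'⟩
      · rw [← Point.zero_def, smul_zero] at hP'; exact absurd hP'.symm (Point.some_ne_zero _)
      refine (Point.X_eq_iff.1 (by simpa using e)).resolve_right fun e' => h2 ?_
      conv_lhs => rw [← hP, e', zsmul_neg, hP']
    · obtain ⟨P, hP, e⟩ := exists_zsmul_eq hcd
        ((mem_roots hf).1 (Multiset.mem_toFinset.1 hx))
      exact ⟨⟨P, hP⟩, Subtype.ext e⟩
  obtain ⟨P₀, hP₀⟩ := zsmul_surjective (W := W) hn0 Q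
  replace hP₀ : n • P₀ = Q := hP₀
  let e : {P : W.Point // n • P = 0} ≃ {P : W.Point // n • P = Q} :=
    (Equiv.addRight P₀).subtypeEquiv fun P => by
      simp [smul_add, hP₀]
  rw [Nat.card_congr (e.trans (Equiv.ofBijective g hg)), Nat.card_eq_finsetCard,
    Multiset.toFinset_card_of_nodup hnd, IsAlgClosed.card_roots_eq_natDegree, hd]

/-- For `n` invertible in an algebraically closed field, an elliptic curve has exactly `n²`
points killed by `n`. -/
theorem natCard_torsionBy (W : WeierstrassCurve.Affine F) [W.IsElliptic] {n : ℕ}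
    (hn : (n : F) ≠ 0) : Nat.card (Submodule.torsionBy ℤ W.Point n) = n ^ 2 := by
  rw [← Int.natAbs_natCast n, ← natCard_ker_zsmul (W := W) (n := n) (by exact_mod_cast hn)]
  exact Nat.card_congr (Equiv.subtypeEquivRight fun P => Submodule.mem_torsionBy_iff _ _)

theorem natCard_torsionBy_baseChange {R : Type*} [CommRing R] (W' : WeierstrassCurve R)
    [W'.IsElliptic] [Algebra R F] {n : ℕ} (hn : (n : F) ≠ 0) :
    Nat.card (Submodule.torsionBy ℤ (W'⁄F).Point n) = n ^ 2 :=
  haveI : (W'⁄F).IsElliptic := inferInstanceAs (W'.map (algebraMap R F)).IsElliptic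
  natCard_torsionBy (W'⁄F) hn

end Fermat.Agent.EC
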