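import Fermat.Agent.EC.Torsion.Count

/-!
# Finiteness of `E[n]` over an arbitrary field
-/

namespace Fermat.Agent.EC

open Polynomial WeierstrassCurve.Affine

variable {F : Type*} [Field F]

theorem ΨSq_ne_zero_of_isElliptic (W : WeierstrassCurve F) [W.IsElliptic] {n : ℤ} (hn : n ≠ 0) :
    W.ΨSq n ≠ 0 := by
  classical
  intro h0
  let f := algebraMap F (AlgebraicClosure F)
  have h0' : (W.map f).ΨSq n = 0 := by rw [W.map_ΨSq, h0, Polynomial.map_zero]
  obtain ⟨x, hx⟩ := IsAlgClosed.exists_root ((W.map f).Φ n) fun h => by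
    have := natDegree_eq_of_degree_eq_some h
    rw [(W.map f).natDegree_Φ] at this
    exact hn (Int.natAbs_eq_zero.1 (pow_eq_zero_iff two_ne_zero |>.1 this))
  obtain ⟨y, h⟩ := TorsionCount.exists_nonsingular (W := (W.map f).toAffine) x
  exact eval_Φ_ne_zero_of_eval_ΨSq_eq_zero h n (by rw [h0', eval_zero]) hx

variable [DecidableEq F]

theorem finite_ker_zsmul (W : WeierstrassCurve.Affine F) [W.IsElliptic] {n : ℤ} (hn : n ≠ 0) :
    {P : W.Point | n • P = 0}.Finite := by
  have hΨ := ΨSq_ne_zero_of_isElliptic W hn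
  have key : {P : W.Point | n • P = 0} ⊆
      Point.xRep ⁻¹' (insert ![1, 0] ((fun x => ![x, 1]) '' {x | (W.ΨSq n).IsRoot x})) := by
    rintro (_ | ⟨x, y, h⟩) hP
    · exact Set.mem_insert _ _
    · exact Set.mem_insert_of_mem _ ⟨x, (zsmul_some_eq_zero_iff h n).1 hP, (Point.xRep_some h).symm⟩
  refine Set.Finite.subset (Set.Finite.preimage' (((finite_setOfPred_isRoot hΨ).image _).insert _)
    fun b _ => ?_) key
  rcases (Point.xRep ⁻¹' {b} : Set W.Point).eq_empty_or_nonempty with h | ⟨P, hP⟩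
  · rw [h]; exact Set.finite_empty
  · exact (Set.toFinite {P, -P}).subset fun Q hQ =>
      Point.eq_or_eq_neg_of_xRep_eq_xRep (by rw [Set.mem_preimage.1 hQ, Set.mem_preimage.1 hP])

/-- `E[n]` is finite for every `n ≠ 0`, over every field. -/
theorem finite_torsionBy (W : WeierstrassCurve.Affine F) [W.IsElliptic] {n : ℕ} (hn : n ≠ 0) :
    Finite (Submodule.torsionBy ℤ W.Point n) :=
  have : Finite {P : W.Point | (n : ℤ) • P = 0} :=
    (finite_ker_zsmul W (n := n) (by exact_mod_cast hn)).to_subtype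
  Finite.of_injective
    (fun P : Submodule.torsionBy ℤ W.Point n =>
      (⟨P.1, (Submodule.mem_torsionBy_iff _ _).1 P.2⟩ : {P : W.Point | (n : ℤ) • P = 0}))
    fun _ _ h => Subtype.ext (Subtype.mk.inj h)

theorem finite_torsionBy_baseChange {R : Type*} [CommRing R] (W' : WeierstrassCurve R)
    [W'.IsElliptic] [Algebra R F] {n : ℕ} (hn : n ≠ 0) :
    Finite (Submodule.torsionBy ℤ (W'⁄F).Point n) :=
  have : (W'⁄F).IsElliptic := inferInstanceAs (W'.map (algebraMap R F)).IsElliptic
  finite_torsionBy (W'⁄F) hn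

end Fermat.Agent.EC
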