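import Fermat.Agent.EC.Torsion.Finite
import Fermat.Prelude.Def_GaloisRep_Residual

/-!
# The Galois action on `E[n]` factors through a finite level
-/

namespace Fermat.Agent.EC

open WeierstrassCurve.Affine IntermediateField

variable {R S K : Type*} [CommRing R] [Field S] [Field K] [DecidableEq K] [Algebra R S]
  [Algebra R K] [Algebra S K] [IsScalarTower R S K] [Algebra.IsAlgebraic S K]

/-- There is a finite extension of `S` inside `K` whose fixing automorphisms fix all of `E[n]`. -/
theorem exists_finite_level_torsion (W : WeierstrassCurve R) [W.IsElliptic] {n : ℕ} (hn : n ≠ 0) :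
    ∃ L : IntermediateField S K, FiniteDimensional S L ∧
      ∀ σ : K ≃ₐ[S] K, (∀ x ∈ L, σ x = x) →
        ∀ P : Submodule.torsionBy ℤ (W⁄K).Point n, σ • P = P := by
  have := finite_torsionBy_baseChange (F := K) W hn
  let coords : (W⁄K).Point → Set K := fun P =>
    match P with
    | .zero => ∅
    | @Point.some _ _ _ x y _ => {x, y}
  let s : Set K := ⋃ P : Submodule.torsionBy ℤ (W⁄K).Point n, coords P.1
  have hs : s.Finite := by
    refine Set.finite_iUnion fun P => ?_
    rcases P.1 with _ | ⟨x, y, h⟩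
    · exact Set.finite_empty
    · exact Set.toFinite {x, y}
  have : Finite s := hs.to_subtype
  refine ⟨adjoin S s,
    IntermediateField.finiteDimensional_adjoin fun x _ => Algebra.IsIntegral.isIntegral x,
    fun σ hσ P => Subtype.ext ?_⟩
  obtain ⟨_ | ⟨x, y, h⟩, hP⟩ := P
  · rfl
  · have hx : x ∈ adjoin S s := subset_adjoin S s <| Set.mem_iUnion.2 ⟨⟨_, hP⟩, Or.inl rfl⟩
    have hy : y ∈ adjoin S s := subset_adjoin S s <| Set.mem_iUnion.2 ⟨⟨_, hP⟩, Or.inr rfl⟩
    change Point.map σ.toAlgHom (Point.some x y h) = Point.some x y h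
    rw [Point.map_some, Point.some.injEq]
    exact ⟨hσ x hx, hσ y hy⟩

theorem galoisRepModuleEnd_factorsThroughFiniteLevel (W : WeierstrassCurve ℚ) [W.IsElliptic]
    {n : ℕ} (hn : n ≠ 0) :
    GaloisFactorsThroughFiniteLevel
      (WeierstrassCurve.Affine.Point.galoisRepModuleEnd (K := AlgebraicClosure ℚ) ℚ W n) := by
  have : Algebra.IsAlgebraic ℚ (AlgebraicClosure ℚ) := AlgebraicClosure.isAlgebraic ℚ
  obtain ⟨L, hL, h⟩ := exists_finite_level_torsion (S := ℚ) (K := AlgebraicClosure ℚ) W hn
  refine ⟨L, hL, fun σ hσ => LinearMap.ext fun P => ?_⟩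
  exact h σ hσ P

end Fermat.Agent.EC
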